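import Fermat.Agent.S16.H471.Schur2

/-!
# Theta inversion for positive definite real matrices (any dimension)

Main results:
* `good_of_posDef` : for a positive definite real matrix `A` on a finite index type,
  `(qf A, qf A⁻¹, det A)` is a Gaussian pair.
* `theta_inversion` : the inversion formula with real characteristics `h, g`.
-/

open Complex Real Matrix

namespace Fermat.Agent.S16.H471

section Reindex

variable {κ ι : Type*} [Fintype κ] [Fintype ι]

lemma UBound.reindex (e : κ ≃ ι) {Q : (ι → ℝ) → ℝ} (hQ : UBound Q) :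
    UBound (fun v : κ → ℝ => Q (v ∘ e.symm)) := by
  intro c hc
  obtain ⟨C, hC⟩ := hQ c hc
  refine ⟨C, fun s => ?_⟩
  have key : ∀ x : κ → ℤ, rexp (-(c * Q ((toR x + s) ∘ e.symm))) =
      (fun y : ι → ℤ => rexp (-(c * Q (toR y + s ∘ e.symm))))
        ((Equiv.arrowCongr e (Equiv.refl ℤ)) x) := fun x => rfl
  constructor
  · have := (Equiv.arrowCongr e (Equiv.refl ℤ)).summable_iff.mpr (hC (s ∘ e.symm)).1
    exact this.congr (fun x => (key x).symm)
  · have := (Equiv.arrowCongr e (Equiv.refl ℤ)).tsum_eq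
      (fun y : ι → ℤ => rexp (-(c * Q (toR y + s ∘ e.symm))))
    calc ∑' x : κ → ℤ, rexp (-(c * Q ((toR x + s) ∘ e.symm)))
        = ∑' y : ι → ℤ, rexp (-(c * Q (toR y + s ∘ e.symm))) := by
          rw [← this]; exact tsum_congr key
      _ ≤ C := (hC _).2

lemma Good.reindex (e : κ ≃ ι) {Q Qd : (ι → ℝ) → ℝ} {δ : ℝ} (hG : Good Q Qd δ) :
    Good (fun v : κ → ℝ => Q (v ∘ e.symm)) (fun v : κ → ℝ => Qd (v ∘ e.symm)) δ where
  pos := hG.pos
  ub := hG.ub.reindex e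
  ubd := hG.ubd.reindex e
  inv := by
    intro τ hτ h g
    have k1 : ∀ x : κ → ℤ, term (fun v : κ → ℝ => Q (v ∘ e.symm)) τ h g x =
        term Q τ (h ∘ e.symm) (g ∘ e.symm) ((Equiv.arrowCongr e (Equiv.refl ℤ)) x) := by
      intro x
      simp only [term]
      have : g ⬝ᵥ (toR x + h) = (g ∘ e.symm) ⬝ᵥ ((toR x + h) ∘ e.symm) :=
        (comp_equiv_dotProduct_comp_equiv _ _ e.symm).symm
      rw [this]
      rfl
    have k2 : ∀ y : κ → ℤ, dterm (fun v : κ → ℝ => Qd (v ∘ e.symm)) τ h g y =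
        dterm Qd τ (h ∘ e.symm) (g ∘ e.symm) ((Equiv.arrowCongr e (Equiv.refl ℤ)) y) := by
      intro y
      simp only [dterm]
      have : toR y ⬝ᵥ h = (toR y ∘ e.symm) ⬝ᵥ (h ∘ e.symm) :=
        (comp_equiv_dotProduct_comp_equiv _ _ e.symm).symm
      rw [this]
      rfl
    rw [tsum_congr k1, tsum_congr k2,
      (Equiv.arrowCongr e (Equiv.refl ℤ)).tsum_eq (term Q τ (h ∘ e.symm) (g ∘ e.symm)),
      (Equiv.arrowCongr e (Equiv.refl ℤ)).tsum_eq (dterm Qd τ (h ∘ e.symm) (g ∘ e.symm)),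
      hG.inv τ hτ, Fintype.card_congr e]

end Reindex

section Base

variable {ι : Type*} [Fintype ι]

lemma good_of_isEmpty [IsEmpty ι] (Q Qd : (ι → ℝ) → ℝ) (hQ : ∀ v, Q v = 0)
    (hQd : ∀ v, Qd v = 0) : Good Q Qd 1 where
  pos := one_pos
  ub := by
    intro c _
    refine ⟨1, fun s => ⟨Summable.of_finite, ?_⟩⟩
    rw [tsum_eq_single (0 : ι → ℤ) (fun x hx => absurd (Subsingleton.elim x 0) hx)]
    simp [hQ]
  ubd := by
    intro c _
    refine ⟨1, fun s => ⟨Summable.of_finite, ?_⟩⟩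
    rw [tsum_eq_single (0 : ι → ℤ) (fun x hx => absurd (Subsingleton.elim x 0) hx)]
    simp [hQd]
  inv := by
    intro τ _ h g
    rw [tsum_eq_single (0 : ι → ℤ) (fun x hx => absurd (Subsingleton.elim x 0) hx),
      tsum_eq_single (0 : ι → ℤ) (fun x hx => absurd (Subsingleton.elim x 0) hx)]
    simp [term, dterm, hQ, hQd, dotProduct]

end Base

section MainThm

lemma qf_submatrix_equiv {κ ι : Type*} [Fintype κ] [Fintype ι] (A : Matrix ι ι ℝ) (e : κ ≃ ι)
    (v : ι → ℝ) : qf (A.submatrix e e) (v ∘ e) = qf A v := by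
  simp only [qf]
  rw [submatrix_mulVec_equiv, comp_equiv_dotProduct_comp_equiv]
  simp [Function.comp_assoc]

/-- `Fin (n+1) ≃ Unit ⊕ Fin n` -/
def finSuccSum (n : ℕ) : Fin (n + 1) ≃ Unit ⊕ Fin n :=
  ((finSuccEquiv n).trans (Equiv.optionEquivSumPUnit (Fin n))).trans (Equiv.sumComm _ _)

/-- step: from index type `ι` to `Unit ⊕ ι`. -/
lemma good_step {ι : Type*} [Fintype ι] [DecidableEq ι]
    (IH : ∀ S : Matrix ι ι ℝ, S.PosDef → Good (qf S) (qf S⁻¹) S.det)
    (A : Matrix (Unit ⊕ ι) (Unit ⊕ ι) ℝ) (hA : A.PosDef) : Good (qf A) (qf A⁻¹) A.det := by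
  have hsymm := isSymm_of_posDef hA
  have ha := cornerA_pos A hA
  have hS := schurS_posDef A hA
  have := (IH _ hS).step (cornerA A) ha (betaV A)
  rw [← qf_eq_Qp A hsymm ha.ne', ← qf_inv_eq_Qdp A hA, ← det_eq_corner_mul A hA] at this
  exact this

/-- transport along an equivalence of index types -/
lemma good_transport {κ ι : Type*} [Fintype κ] [DecidableEq κ] [Fintype ι] [DecidableEq ι]
    (e : κ ≃ ι)
    (H : ∀ B : Matrix ι ι ℝ, B.PosDef → Good (qf B) (qf B⁻¹) B.det)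
    (A : Matrix κ κ ℝ) (hA : A.PosDef) : Good (qf A) (qf A⁻¹) A.det := by
  set B : Matrix ι ι ℝ := A.submatrix e.symm e.symm with hB
  have hBpos : B.PosDef := hA.submatrix e.symm.injective
  have hG := (H B hBpos).reindex e
  have e1 : (fun v : κ → ℝ => qf B (v ∘ e.symm)) = qf A := by
    funext v
    exact qf_submatrix_equiv A e.symm v
  have e2 : (fun v : κ → ℝ => qf B⁻¹ (v ∘ e.symm)) = qf A⁻¹ := by
    funext v
    rw [hB, inv_submatrix_equiv]
    exact qf_submatrix_equiv A⁻¹ e.symm v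
  have e3 : B.det = A.det := det_submatrix_equiv_self e.symm A
  rw [e1, e2, e3] at hG
  exact hG

lemma good_fin (n : ℕ) :
    ∀ A : Matrix (Fin n) (Fin n) ℝ, A.PosDef → Good (qf A) (qf A⁻¹) A.det := by
  induction n with
  | zero =>
    intro A _
    have h1 : A.det = 1 := det_isEmpty
    rw [h1]
    exact good_of_isEmpty _ _ (fun v => by simp [qf, dotProduct]) (fun v => by simp [qf, dotProduct])
  | succ n ih =>
    intro A hA
    exact good_transport (finSuccSum n) (good_step ih) A hA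

/-- **Gaussian pair of a positive definite matrix.** -/
theorem good_of_posDef {ι : Type*} [Fintype ι] [DecidableEq ι] (A : Matrix ι ι ℝ)
    (hA : A.PosDef) : Good (qf A) (qf A⁻¹) A.det :=
  good_transport (Fintype.equivFin ι) (good_fin _) A hA

/-- **Theta inversion** for a positive definite real matrix `A`, `Im τ > 0`, and real
characteristics `h`, `g`:
`∑ₓ exp(πiτ (x+h)ᵀA(x+h) + 2πi g·(x+h))
  = (-iτ)^(-n/2) (det A)^(-1/2) ∑_y exp(-(πi/τ) (y-g)ᵀA⁻¹(y-g) + 2πi y·h)`. -/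
theorem theta_inversion {ι : Type*} [Fintype ι] [DecidableEq ι] (A : Matrix ι ι ℝ)
    (hA : A.PosDef) (τ : ℂ) (hτ : 0 < τ.im) (h g : ι → ℝ) :
    ∑' x : ι → ℤ, cexp (π * I * τ * ((toR x + h) ⬝ᵥ (A *ᵥ (toR x + h)) : ℝ) +
        2 * π * I * ((g ⬝ᵥ (toR x + h) : ℝ) : ℂ)) =
      (1 / (-I * τ) ^ (1 / 2 : ℂ)) ^ Fintype.card ι * (1 / (Real.sqrt A.det : ℂ)) *
        ∑' y : ι → ℤ, cexp (-(π * I / τ) * ((toR y - g) ⬝ᵥ (A⁻¹ *ᵥ (toR y - g)) : ℝ) +
          2 * π * I * ((toR y ⬝ᵥ h : ℝ) : ℂ)) :=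
  (good_of_posDef A hA).inv τ hτ h g

theorem theta_summable {ι : Type*} [Fintype ι] [DecidableEq ι] (A : Matrix ι ι ℝ)
    (hA : A.PosDef) (τ : ℂ) (hτ : 0 < τ.im) (h g : ι → ℝ) :
    Summable (fun x : ι → ℤ => cexp (π * I * τ * ((toR x + h) ⬝ᵥ (A *ᵥ (toR x + h)) : ℝ) +
        2 * π * I * ((g ⬝ᵥ (toR x + h) : ℝ) : ℂ))) :=
  (good_of_posDef A hA).ub.summable_term τ hτ h g

theorem theta_dual_summable {ι : Type*} [Fintype ι] [DecidableEq ι] (A : Matrix ι ι ℝ)
    (hA : A.PosDef) (τ : ℂ) (hτ : 0 < τ.im) (h g : ι → ℝ) :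
    Summable (fun y : ι → ℤ =>
      cexp (-(π * I / τ) * ((toR y - g) ⬝ᵥ (A⁻¹ *ᵥ (toR y - g)) : ℝ) +
          2 * π * I * ((toR y ⬝ᵥ h : ℝ) : ℂ))) :=
  (good_of_posDef A hA).ubd.summable_dterm τ hτ h g

end MainThm

end Fermat.Agent.S16.H471
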