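import Fermat.Agent.S16.H471.GaussStep

/-!
# The induction step for the inversion formula
-/

open Complex Real Matrix

namespace Fermat.Agent.S16.H471

section Inv

variable {ι : Type*} [Fintype ι]

/-- The 1-D factor. -/
noncomputable def oneTerm (a : ℝ) (τ : ℂ) (c γ : ℝ) (n : ℤ) : ℂ :=
  cexp (π * I * τ * a * ((n : ℂ) + c) ^ 2 + 2 * π * I * γ * ((n : ℂ) + c))

/-- The dual 1-D factor. -/
noncomputable def oneDual (a : ℝ) (τ : ℂ) (c γ : ℝ) (m : ℤ) : ℂ :=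
  cexp (-(π * I / (τ * a)) * ((m : ℂ) - γ) ^ 2 + 2 * π * I * m * c)

lemma term_step (a : ℝ) (β : ι → ℝ) (Q : (ι → ℝ) → ℝ) (τ : ℂ) (h g : Unit ⊕ ι → ℝ)
    (p : (ι → ℤ) × ℤ) :
    term (Qp a β Q) τ h g ((splitE ι).symm p) =
      oneTerm a τ (h (Sum.inl ()) + β ⬝ᵥ (toR p.1 + h ∘ Sum.inr)) (g (Sum.inl ())) p.2 *
        term Q τ (h ∘ Sum.inr) (g ∘ Sum.inr - g (Sum.inl ()) • β) p.1 := by
  simp only [term, oneTerm, Qp, dot_sum g, toR_split_inl, toR_split_inr, ← Complex.exp_add,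
    sub_dotProduct, smul_dotProduct, smul_eq_mul]
  congr 1
  push_cast
  ring

lemma dterm_step (a : ℝ) (ha : a ≠ 0) (β : ι → ℝ) (Qd : (ι → ℝ) → ℝ) (τ : ℂ) (h g : Unit ⊕ ι → ℝ)
    (p : (ι → ℤ) × ℤ) :
    dterm (Qdp a β Qd) τ h g ((splitE ι).symm p) =
      oneDual a τ (h (Sum.inl ())) (g (Sum.inl ())) p.2 *
        dterm Qd τ (h ∘ Sum.inr)
          (g ∘ Sum.inr + ((p.2 : ℝ) - g (Sum.inl ())) • β) p.1 := by
  have hsub : toR p.1 - (g ∘ Sum.inr + ((p.2 : ℝ) - g (Sum.inl ())) • β) =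
      toR p.1 - g ∘ Sum.inr - ((p.2 : ℝ) - g (Sum.inl ())) • β := by
    rw [sub_sub]
  simp only [dterm, oneDual, Qdp, dot_sum _ h, toR_split_sub_inl, toR_split_sub_inr,
    ← Complex.exp_add, hsub]
  congr 1
  have h1 : ((toR ((splitE ι).symm p)) (Sum.inl ())) = (p.2 : ℝ) := rfl
  have h2 : (toR ((splitE ι).symm p)) ∘ Sum.inr = toR p.1 := rfl
  rw [h1, h2]
  have ha' : (a : ℂ) ≠ 0 := by exact_mod_cast ha
  push_cast
  field_simp
  ring

/-- shifting the linear term by a multiple of `β` -/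
lemma term_shift (Q : (ι → ℝ) → ℝ) (τ : ℂ) (h g β : ι → ℝ) (m : ℝ) (x : ι → ℤ) :
    cexp (2 * π * I * m * ((β ⬝ᵥ (toR x + h) : ℝ) : ℂ)) * term Q τ h g x =
      term Q τ h (g + m • β) x := by
  simp only [term, ← Complex.exp_add, add_dotProduct, smul_dotProduct, smul_eq_mul]
  congr 1
  push_cast
  ring

lemma oneDual_split (a : ℝ) (τ : ℂ) (c₀ c₁ γ : ℝ) (m : ℤ) :
    oneDual a τ (c₀ + c₁) γ m = oneDual a τ c₀ γ m * cexp (2 * π * I * m * (c₁ : ℂ)) := by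
  simp only [oneDual, ← Complex.exp_add]
  congr 1
  push_cast
  ring

lemma norm_oneDual (a : ℝ) (τ : ℂ) (c γ : ℝ) (m : ℤ) :
    ‖oneDual a τ c γ m‖ = rexp (-(π * (τ.im / Complex.normSq τ) / a * ((m : ℝ) + (-γ)) ^ 2)) := by
  rw [oneDual, Complex.norm_exp]
  congr 1
  have h1 : (π * I / (τ * a)).re = π * (τ.im / Complex.normSq τ) / a := by
    rw [Complex.div_re]
    simp only [Complex.mul_re, Complex.mul_im, Complex.ofReal_re, Complex.ofReal_im,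
      Complex.I_re, Complex.I_im, Complex.normSq_mul, Complex.normSq_ofReal]
    by_cases ha : a = 0
    · simp [ha]
    by_cases hτ : Complex.normSq τ = 0
    · have : τ = 0 := Complex.normSq_eq_zero.mp hτ
      simp [this]
    field_simp
    ring
  have h2 : (((m : ℂ) - (γ : ℂ)) ^ 2).re = ((m : ℝ) + (-γ)) ^ 2 := by
    have : ((m : ℂ) - (γ : ℂ)) = (((m : ℝ) + (-γ) : ℝ) : ℂ) := by push_cast; ring
    rw [this, ← Complex.ofReal_pow, Complex.ofReal_re]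
  have h3 : (((m : ℂ) - (γ : ℂ)) ^ 2).im = 0 := by
    have : ((m : ℂ) - (γ : ℂ)) = (((m : ℝ) + (-γ) : ℝ) : ℂ) := by push_cast; ring
    rw [this, ← Complex.ofReal_pow, Complex.ofReal_im]
  have h4 : (2 * (π : ℂ) * I * (m : ℂ) * (c : ℂ)).re = 0 := by
    have : 2 * (π : ℂ) * I * (m : ℂ) * (c : ℂ) = ((2 * π * m * c : ℝ) : ℂ) * I := by
      push_cast; ring
    rw [this, Complex.re_ofReal_mul]
    simp
  rw [Complex.add_re, h4, add_zero, neg_mul, Complex.neg_re, Complex.mul_re, h1, h2, h3]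
  ring

end Inv

end Fermat.Agent.S16.H471
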