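import Fermat.Agent.S16.H471.GaussInv

/-!
# Gaussian pairs are stable under adjoining one variable
-/

open Complex Real Matrix

namespace Fermat.Agent.S16.H471

section Main

variable {ι : Type*} [Fintype ι]

lemma cst_mul_sqrt (τ : ℂ) (a δ : ℝ) (ha : 0 < a) (hδ : 0 < δ) (n : ℕ) :
    1 / ((-I * τ) ^ (1 / 2 : ℂ) * (Real.sqrt a : ℂ)) * (cst τ ^ n * (1 / (Real.sqrt δ : ℂ))) =
      cst τ ^ (1 + n) * (1 / (Real.sqrt (a * δ) : ℂ)) := by
  rw [Real.sqrt_mul ha.le, cst]
  push_cast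
  simp only [one_div, mul_inv]
  ring

theorem Good.step {Q Qd : (ι → ℝ) → ℝ} {δ : ℝ} (hG : Good Q Qd δ) (a : ℝ) (ha : 0 < a)
    (β : ι → ℝ) : Good (Qp a β Q) (Qdp a β Qd) (a * δ) where
  pos := mul_pos ha hG.pos
  ub := hG.ub.step a ha β
  ubd := hG.ubd.stepd a ha β
  inv := by
    intro τ hτ h g
    have hubP := hG.ub.step a ha β
    have hubD := hG.ubd.stepd a ha β
    set h₀ := h (Sum.inl ()) with hh₀
    set h' := h ∘ Sum.inr with hh'
    set g₀ := g (Sum.inl ()) with hg₀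
    set g' := g ∘ Sum.inr with hg'
    set K : ℂ := 1 / ((-I * τ) ^ (1 / 2 : ℂ) * (Real.sqrt a : ℂ)) with hK
    -- the intermediate double family
    set F : ℤ → (ι → ℤ) → ℂ := fun m x' =>
      oneDual a τ h₀ g₀ m * term Q τ h' (g' + ((m : ℝ) - g₀) • β) x' with hF
    -- Step A/B: split the sum
    have hsumP : Summable (fun p : (ι → ℤ) × ℤ => term (Qp a β Q) τ h g ((splitE ι).symm p)) :=
      (splitE ι).symm.summable_iff.mpr (hubP.summable_term τ hτ h g)
    have hA : ∑' x, term (Qp a β Q) τ h g x =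
        ∑' x' : ι → ℤ, ∑' n : ℤ, term (Qp a β Q) τ h g ((splitE ι).symm (x', n)) := by
      rw [← (splitE ι).symm.tsum_eq]
      exact hsumP.tsum_prod
    -- Step C: inner sum by the 1-D formula
    have hC : ∀ x' : ι → ℤ, ∑' n : ℤ, term (Qp a β Q) τ h g ((splitE ι).symm (x', n)) =
        K * ∑' m : ℤ, F m x' := by
      intro x'
      have e1 : ∀ n : ℤ, term (Qp a β Q) τ h g ((splitE ι).symm (x', n)) =
          oneTerm a τ (h₀ + β ⬝ᵥ (toR x' + h')) g₀ n * term Q τ h' (g' - g₀ • β) x' :=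
        fun n => term_step a β Q τ h g (x', n)
      simp_rw [e1]
      rw [tsum_mul_right]
      have e2 := theta_one_dim a ha τ hτ (h₀ + β ⬝ᵥ (toR x' + h')) g₀
      have e2' : ∑' n : ℤ, oneTerm a τ (h₀ + β ⬝ᵥ (toR x' + h')) g₀ n =
          K * ∑' m : ℤ, oneDual a τ (h₀ + β ⬝ᵥ (toR x' + h')) g₀ m := by
        simpa only [oneTerm, oneDual] using e2
      rw [e2', mul_assoc, ← tsum_mul_right]
      congr 1
      refine tsum_congr (fun m => ?_)
      have e4 := term_shift Q τ h' (g' - g₀ • β) β (m : ℝ) x'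
      rw [Complex.ofReal_intCast] at e4
      rw [oneDual_split, mul_assoc, e4, hF]
      simp only
      congr 2
      rw [sub_smul]
      abel
    -- summability of F
    have hFs : Summable (Function.uncurry F) := by
      refine Summable.of_norm ?_
      obtain ⟨C₁, hC₁⟩ := ubound_one (π * (τ.im / Complex.normSq τ) / a)
        (div_pos (mul_pos pi_pos (im_div_normSq_pos τ hτ)) ha)
      obtain ⟨C₂, hC₂⟩ := hG.ub (π * τ.im) (mul_pos pi_pos hτ)
      have := Summable.mul_of_nonneg (hC₁ (-g₀)).1 (hC₂ h').1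
        (fun _ => (Real.exp_pos _).le) (fun _ => (Real.exp_pos _).le)
      refine this.congr (fun p => ?_)
      simp only [Function.uncurry, hF, norm_mul, norm_oneDual, norm_term]
    -- Step D: swap
    have hD : ∑' x' : ι → ℤ, ∑' m : ℤ, F m x' = ∑' m : ℤ, ∑' x' : ι → ℤ, F m x' :=
      hFs.tsum_comm
    -- Step E: inner sum by the induction hypothesis
    have hE : ∀ m : ℤ, ∑' x' : ι → ℤ, F m x' =
        cst τ ^ Fintype.card ι * (1 / (Real.sqrt δ : ℂ)) *
          ∑' y' : ι → ℤ, dterm (Qdp a β Qd) τ h g ((splitE ι).symm (y', m)) := by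
      intro m
      simp only [hF]
      rw [tsum_mul_left, hG.inv τ hτ h' (g' + ((m : ℝ) - g₀) • β)]
      have e3 : ∀ y' : ι → ℤ, dterm (Qdp a β Qd) τ h g ((splitE ι).symm (y', m)) =
          oneDual a τ h₀ g₀ m * dterm Qd τ h' (g' + ((m : ℝ) - g₀) • β) y' :=
        fun y' => dterm_step a ha.ne' β Qd τ h g (y', m)
      simp_rw [e3]
      rw [tsum_mul_left]
      ring
    -- Step F: recombine
    have hsumD : Summable (fun p : (ι → ℤ) × ℤ => dterm (Qdp a β Qd) τ h g ((splitE ι).symm p)) :=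
      (splitE ι).symm.summable_iff.mpr (hubD.summable_dterm τ hτ h g)
    have hF2 : ∑' m : ℤ, ∑' y' : ι → ℤ, dterm (Qdp a β Qd) τ h g ((splitE ι).symm (y', m)) =
        ∑' y, dterm (Qdp a β Qd) τ h g y := by
      rw [← (splitE ι).symm.tsum_eq, hsumD.tsum_prod]
      exact (Summable.tsum_comm (f := fun (y' : ι → ℤ) (m : ℤ) =>
        dterm (Qdp a β Qd) τ h g ((splitE ι).symm (y', m)))
        (hsumD.congr (fun p => by rcases p with ⟨y, m⟩; rfl)))
    rw [hA]
    simp_rw [hC]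
    rw [tsum_mul_left, hD]
    simp_rw [hE]
    rw [tsum_mul_left, hF2, ← mul_assoc, cst_mul_sqrt τ a δ ha hG.pos]
    congr 3
    simp [Fintype.card_sum, add_comm]

end Main

end Fermat.Agent.S16.H471
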