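import Fermat.Agent.S16.H471.ThetaOneDim

/-!
# Abstract Gaussian pairs and the one-variable induction step

A *Gaussian pair* on `ι` consists of two functions `Q Qd : (ι → ℝ) → ℝ` and a number `δ > 0`
such that the theta inversion formula
`∑ₓ exp(πiτ Q(x+h) + 2πi g·(x+h)) = (-iτ)^(-n/2) δ^(-1/2) ∑_y exp(-(πi/τ) Qd(y-g) + 2πi y·h)`
holds for all `τ` in the upper half plane and all real `h, g`, together with uniform Gaussian
bounds.  We show that Gaussian pairs are stable under adjoining one variable (`Good.step`).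
-/

open Complex Real Matrix

namespace Fermat.Agent.S16.H471

section Defs

variable {ι : Type*} [Fintype ι]

/-- cast an integer vector to a real vector -/
def toR (x : ι → ℤ) : ι → ℝ := fun i => (x i : ℝ)

@[simp] lemma toR_apply (x : ι → ℤ) (i : ι) : toR x i = (x i : ℝ) := rfl

/-- general term of the theta sum -/
noncomputable def term (Q : (ι → ℝ) → ℝ) (τ : ℂ) (h g : ι → ℝ) (x : ι → ℤ) : ℂ :=
  cexp (π * I * τ * (Q (toR x + h) : ℝ) + 2 * π * I * ((g ⬝ᵥ (toR x + h) : ℝ) : ℂ))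

/-- general term of the dual theta sum -/
noncomputable def dterm (Qd : (ι → ℝ) → ℝ) (τ : ℂ) (h g : ι → ℝ) (y : ι → ℤ) : ℂ :=
  cexp (-(π * I / τ) * (Qd (toR y - g) : ℝ) + 2 * π * I * ((toR y ⬝ᵥ h : ℝ) : ℂ))

lemma norm_term (Q : (ι → ℝ) → ℝ) (τ : ℂ) (h g : ι → ℝ) (x : ι → ℤ) :
    ‖term Q τ h g x‖ = rexp (-(π * τ.im * Q (toR x + h))) := by
  rw [term, Complex.norm_exp]
  congr 1
  simp only [Complex.add_re, Complex.mul_re, Complex.mul_im, Complex.ofReal_re, Complex.ofReal_im,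
    Complex.I_re, Complex.I_im, Complex.re_ofNat, Complex.im_ofNat]
  ring

lemma norm_dterm (Qd : (ι → ℝ) → ℝ) (τ : ℂ) (h g : ι → ℝ) (y : ι → ℤ) :
    ‖dterm Qd τ h g y‖ = rexp (-(π * (τ.im / Complex.normSq τ) * Qd (toR y - g))) := by
  rw [dterm, Complex.norm_exp]
  congr 1
  have h1 : (π * I / τ).re = π * (τ.im / Complex.normSq τ) := by
    rw [Complex.div_re]
    simp only [Complex.mul_re, Complex.mul_im, Complex.ofReal_re, Complex.ofReal_im,
      Complex.I_re, Complex.I_im]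
    ring
  simp only [Complex.add_re, Complex.neg_re, Complex.mul_re, Complex.mul_im, Complex.ofReal_re,
    Complex.ofReal_im, Complex.I_re, Complex.I_im, Complex.re_ofNat, Complex.im_ofNat, h1,
    Complex.neg_im]
  ring

/-- Uniform Gaussian bound for a form `Q`. -/
def UBound (Q : (ι → ℝ) → ℝ) : Prop :=
  ∀ c : ℝ, 0 < c → ∃ C : ℝ, ∀ s : ι → ℝ,
    Summable (fun x : ι → ℤ => rexp (-(c * Q (toR x + s)))) ∧
      ∑' x : ι → ℤ, rexp (-(c * Q (toR x + s))) ≤ C

/-- the constant `(-iτ)^(-1/2)` -/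
noncomputable def cst (τ : ℂ) : ℂ := 1 / (-I * τ) ^ (1 / 2 : ℂ)

/-- A Gaussian pair: uniform bounds + inversion formula. -/
structure Good (Q Qd : (ι → ℝ) → ℝ) (δ : ℝ) : Prop where
  pos : 0 < δ
  ub : UBound Q
  ubd : UBound Qd
  inv : ∀ τ : ℂ, 0 < τ.im → ∀ h g : ι → ℝ,
    ∑' x : ι → ℤ, term Q τ h g x =
      cst τ ^ Fintype.card ι * (1 / (Real.sqrt δ : ℂ)) * ∑' y : ι → ℤ, dterm Qd τ h g y

lemma UBound.summable_term {Q : (ι → ℝ) → ℝ} (hQ : UBound Q) (τ : ℂ) (hτ : 0 < τ.im)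
    (h g : ι → ℝ) : Summable (term Q τ h g) := by
  obtain ⟨C, hC⟩ := hQ (π * τ.im) (mul_pos pi_pos hτ)
  refine Summable.of_norm ?_
  refine (hC h).1.congr (fun x => ?_)
  rw [norm_term]

lemma im_div_normSq_pos (τ : ℂ) (hτ : 0 < τ.im) : 0 < τ.im / Complex.normSq τ := by
  apply div_pos hτ
  apply Complex.normSq_pos.mpr
  rintro rfl
  simp at hτ

lemma UBound.summable_dterm {Qd : (ι → ℝ) → ℝ} (hQ : UBound Qd) (τ : ℂ) (hτ : 0 < τ.im)
    (h g : ι → ℝ) : Summable (dterm Qd τ h g) := by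
  obtain ⟨C, hC⟩ := hQ (π * (τ.im / Complex.normSq τ)) (mul_pos pi_pos (im_div_normSq_pos τ hτ))
  refine Summable.of_norm ?_
  refine ((hC (-g)).1.congr (fun x => ?_))
  rw [norm_dterm, sub_eq_add_neg]

end Defs

section Tri

/-- Summability and bound of a "triangular" product family. -/
lemma summable_tri {X Y : Type*} (f : X → ℝ) (g : X → Y → ℝ) (hf : ∀ x, 0 ≤ f x)
    (hg : ∀ x y, 0 ≤ g x y) (hfs : Summable f) (C : ℝ)
    (hgs : ∀ x, Summable (g x) ∧ ∑' y, g x y ≤ C) :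
    Summable (fun p : X × Y => f p.1 * g p.1 p.2) ∧
      ∑' p : X × Y, f p.1 * g p.1 p.2 ≤ (∑' x, f x) * C := by
  have hnn : 0 ≤ fun p : X × Y => f p.1 * g p.1 p.2 := fun p => mul_nonneg (hf _) (hg _ _)
  have hfib : ∀ x, Summable fun y => f x * g x y := fun x => (hgs x).1.mul_left _
  have hle : ∀ x, ∑' y, f x * g x y ≤ f x * C := by
    intro x
    rw [tsum_mul_left]
    exact mul_le_mul_of_nonneg_left (hgs x).2 (hf x)
  have hnn2 : ∀ x, 0 ≤ ∑' y, f x * g x y := fun x => tsum_nonneg (fun y => mul_nonneg (hf _) (hg _ _))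
  have hout : Summable fun x => ∑' y, f x * g x y :=
    Summable.of_nonneg_of_le hnn2 hle (hfs.mul_right C)
  have hS : Summable (fun p : X × Y => f p.1 * g p.1 p.2) :=
    (summable_prod_of_nonneg hnn).mpr ⟨hfib, hout⟩
  refine ⟨hS, ?_⟩
  rw [hS.tsum_prod' hfib]
  calc ∑' x, ∑' y, f x * g x y ≤ ∑' x, f x * C := hout.tsum_le_tsum hle (hfs.mul_right C)
    _ = (∑' x, f x) * C := tsum_mul_right
  
end Tri

end Fermat.Agent.S16.H471
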