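import Fermat.Agent.S16.H471.GaussPair

/-!
# The induction step: adjoining one variable to a Gaussian pair
-/

open Complex Real Matrix

namespace Fermat.Agent.S16.H471

section Step

variable {ι : Type*} [Fintype ι]

/-- forward form on `Unit ⊕ ι` -/
def Qp (a : ℝ) (β : ι → ℝ) (Q : (ι → ℝ) → ℝ) (v : Unit ⊕ ι → ℝ) : ℝ :=
  a * (v (Sum.inl ()) + β ⬝ᵥ (v ∘ Sum.inr)) ^ 2 + Q (v ∘ Sum.inr)

/-- dual form on `Unit ⊕ ι` -/
noncomputable def Qdp (a : ℝ) (β : ι → ℝ) (Qd : (ι → ℝ) → ℝ) (w : Unit ⊕ ι → ℝ) : ℝ :=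
  (w (Sum.inl ())) ^ 2 / a + Qd (w ∘ Sum.inr - (w (Sum.inl ())) • β)

/-- `(Unit ⊕ ι → ℤ) ≃ (ι → ℤ) × ℤ` -/
def splitE (ι : Type*) : (Unit ⊕ ι → ℤ) ≃ (ι → ℤ) × ℤ where
  toFun x := (x ∘ Sum.inr, x (Sum.inl ()))
  invFun p := Sum.elim (fun _ => p.2) p.1
  left_inv x := by
    funext i
    rcases i with u | i
    · rfl
    · rfl
  right_inv p := rfl

@[simp] lemma splitE_symm_inl (p : (ι → ℤ) × ℤ) : (splitE ι).symm p (Sum.inl ()) = p.2 := rfl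
@[simp] lemma splitE_symm_inr (p : (ι → ℤ) × ℤ) (i : ι) :
    (splitE ι).symm p (Sum.inr i) = p.1 i := rfl

lemma toR_split_inl (p : (ι → ℤ) × ℤ) (s : Unit ⊕ ι → ℝ) :
    (toR ((splitE ι).symm p) + s) (Sum.inl ()) = (p.2 : ℝ) + s (Sum.inl ()) := rfl

lemma toR_split_inr (p : (ι → ℤ) × ℤ) (s : Unit ⊕ ι → ℝ) :
    (toR ((splitE ι).symm p) + s) ∘ Sum.inr = toR p.1 + s ∘ Sum.inr := rfl

lemma toR_split_sub_inl (p : (ι → ℤ) × ℤ) (s : Unit ⊕ ι → ℝ) :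
    (toR ((splitE ι).symm p) - s) (Sum.inl ()) = (p.2 : ℝ) - s (Sum.inl ()) := rfl

lemma toR_split_sub_inr (p : (ι → ℤ) × ℤ) (s : Unit ⊕ ι → ℝ) :
    (toR ((splitE ι).symm p) - s) ∘ Sum.inr = toR p.1 - s ∘ Sum.inr := rfl

lemma dot_sum (u v : Unit ⊕ ι → ℝ) :
    u ⬝ᵥ v = u (Sum.inl ()) * v (Sum.inl ()) + (u ∘ Sum.inr) ⬝ᵥ (v ∘ Sum.inr) := by
  simp [dotProduct, Fintype.sum_sum_type]

/-- uniform bound: forward step -/
lemma UBound.step {Q : (ι → ℝ) → ℝ} (hQ : UBound Q) (a : ℝ) (ha : 0 < a) (β : ι → ℝ) :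
    UBound (Qp a β Q) := by
  intro c hc
  obtain ⟨C₂, hC₂⟩ := hQ c hc
  obtain ⟨C₁, hC₁⟩ := ubound_one (c * a) (mul_pos hc ha)
  refine ⟨C₂ * C₁, fun s => ?_⟩
  set f : (ι → ℤ) → ℝ := fun x' => rexp (-(c * Q (toR x' + s ∘ Sum.inr))) with hf
  set g : (ι → ℤ) → ℤ → ℝ := fun x' n =>
    rexp (-(c * a * ((n : ℝ) + (s (Sum.inl ()) + β ⬝ᵥ (toR x' + s ∘ Sum.inr))) ^ 2)) with hg
  have key : ∀ p : (ι → ℤ) × ℤ,
      rexp (-(c * Qp a β Q (toR ((splitE ι).symm p) + s))) = f p.1 * g p.1 p.2 := by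
    intro p
    simp only [hf, hg, Qp, toR_split_inl, toR_split_inr, ← Real.exp_add]
    congr 1
    ring
  have htri := summable_tri f g (fun _ => (Real.exp_pos _).le) (fun _ _ => (Real.exp_pos _).le)
    (hC₂ _).1 C₁ (fun x' => hC₁ _)
  have hsum : Summable (fun p : (ι → ℤ) × ℤ =>
      rexp (-(c * Qp a β Q (toR ((splitE ι).symm p) + s)))) := by
    refine htri.1.congr (fun p => (key p).symm)
  constructor
  · exact (splitE ι).symm.summable_iff.mp hsum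
  · rw [← (splitE ι).symm.tsum_eq]
    calc ∑' p : (ι → ℤ) × ℤ, rexp (-(c * Qp a β Q (toR ((splitE ι).symm p) + s)))
        = ∑' p : (ι → ℤ) × ℤ, f p.1 * g p.1 p.2 := tsum_congr key
      _ ≤ (∑' x', f x') * C₁ := htri.2
      _ ≤ C₂ * C₁ := by
          apply mul_le_mul_of_nonneg_right (hC₂ _).2
          exact le_trans (tsum_nonneg (fun n => (Real.exp_pos _).le)) (hC₁ 0).2

/-- uniform bound: dual step -/
lemma UBound.stepd {Qd : (ι → ℝ) → ℝ} (hQ : UBound Qd) (a : ℝ) (ha : 0 < a) (β : ι → ℝ) :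
    UBound (Qdp a β Qd) := by
  intro c hc
  obtain ⟨C₂, hC₂⟩ := hQ c hc
  obtain ⟨C₁, hC₁⟩ := ubound_one (c / a) (div_pos hc ha)
  refine ⟨C₁ * C₂, fun s => ?_⟩
  set f : ℤ → ℝ := fun m => rexp (-(c / a * ((m : ℝ) + s (Sum.inl ())) ^ 2)) with hf
  set g : ℤ → (ι → ℤ) → ℝ := fun m y' =>
    rexp (-(c * Qd (toR y' + (s ∘ Sum.inr - ((m : ℝ) + s (Sum.inl ())) • β)))) with hg
  have key : ∀ p : (ι → ℤ) × ℤ,
      rexp (-(c * Qdp a β Qd (toR ((splitE ι).symm p) + s))) = f p.2 * g p.2 p.1 := by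
    intro p
    simp only [hf, hg, Qdp, toR_split_inl, toR_split_inr, ← Real.exp_add]
    congr 1
    rw [add_sub_assoc]
    ring
  have htri := summable_tri f g (fun _ => (Real.exp_pos _).le) (fun _ _ => (Real.exp_pos _).le)
    (hC₁ _).1 C₂ (fun m => hC₂ _)
  have hsum' : Summable (fun p : (ι → ℤ) × ℤ => f p.2 * g p.2 p.1) :=
    (Equiv.prodComm _ _).summable_iff.mp htri.1
  have hsum : Summable (fun p : (ι → ℤ) × ℤ =>
      rexp (-(c * Qdp a β Qd (toR ((splitE ι).symm p) + s)))) :=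
    hsum'.congr (fun p => (key p).symm)
  constructor
  · exact (splitE ι).symm.summable_iff.mp hsum
  · rw [← (splitE ι).symm.tsum_eq]
    calc ∑' p : (ι → ℤ) × ℤ, rexp (-(c * Qdp a β Qd (toR ((splitE ι).symm p) + s)))
        = ∑' p : (ι → ℤ) × ℤ, f p.2 * g p.2 p.1 := tsum_congr key
      _ = ∑' p : ℤ × (ι → ℤ), f p.1 * g p.1 p.2 :=
          ((Equiv.prodComm _ _).tsum_eq (fun p : (ι → ℤ) × ℤ => f p.2 * g p.2 p.1)).symm
      _ ≤ (∑' m, f m) * C₂ := htri.2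
      _ ≤ C₁ * C₂ := by
          apply mul_le_mul_of_nonneg_right (hC₁ _).2
          exact le_trans (tsum_nonneg (fun n => (Real.exp_pos _).le)) (hC₂ 0).2

end Step

end Fermat.Agent.S16.H471
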