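import Fermat.Agent.S16.Interface
import Fermat.Agent.S16.H471.ThetaInv

/-!
# WP INV of the S16 skeleton: `ThetaInv p A B` for every good lattice `(A, B)`

`thetaInv_of_isGoodLattice` proves the skeleton predicate `Fermat.Agent.S16.ThetaInv p A B`
for EVERY pair with `IsGoodLattice p A B` (in particular for `ibuA p q r t`), from the general
`n`-dimensional theta inversion `theta_inversion`.
-/

open Complex Real Matrix
open scoped UpperHalfPlane

namespace Fermat.Agent.S16.H471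

lemma toR_mulVec {n : ℕ} (M : Matrix (Fin n) (Fin n) ℤ) (v : Fin n → ℤ) :
    (M.map (Int.cast : ℤ → ℝ)) *ᵥ (toR v) = toR (M *ᵥ v) := by
  funext i
  simp only [mulVec, dotProduct, toR, Matrix.map_apply]
  push_cast
  rfl

lemma toR_dot {n : ℕ} (u v : Fin n → ℤ) : toR u ⬝ᵥ toR v = ((u ⬝ᵥ v : ℤ) : ℝ) := by
  simp only [dotProduct, toR]
  push_cast
  rfl

lemma dot_mulVec_symm {n : ℕ} (M : Matrix (Fin n) (Fin n) ℝ) (hM : M.IsSymm) (u v : Fin n → ℝ) :
    u ⬝ᵥ (M *ᵥ v) = (M *ᵥ u) ⬝ᵥ v := by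
  rw [dotProduct_mulVec, ← mulVec_transpose, hM.eq]

theorem thetaInv_of_isGoodLattice (p : ℕ) (hp : 0 < p) (A B : Matrix (Fin 4) (Fin 4) ℤ)
    (hA : Fermat.Agent.S16.IsGoodLattice p A B) : Fermat.Agent.S16.ThetaInv p A B := by
  intro y z
  have hp0 : (p : ℝ) ≠ 0 := by exact_mod_cast hp.ne'
  have hpc : (p : ℂ) ≠ 0 := by exact_mod_cast hp.ne'
  set AR : Matrix (Fin 4) (Fin 4) ℝ := A.map (Int.cast : ℤ → ℝ) with hAR
  set BR : Matrix (Fin 4) (Fin 4) ℝ := B.map (Int.cast : ℤ → ℝ) with hBR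
  have hsymm : AR.IsSymm := isSymm_of_posDef hA.posDef
  have hAB : AR * BR = (p : ℝ) • (1 : Matrix (Fin 4) (Fin 4) ℝ) := by
    ext i j
    have e : (AR * BR) i j = (((A * B) i j : ℤ) : ℝ) := by
      simp only [hAR, hBR, Matrix.mul_apply, Matrix.map_apply]
      push_cast
      rfl
    rw [e, hA.mul_eq]
    simp only [Matrix.smul_apply, Matrix.one_apply, smul_eq_mul]
    split_ifs <;> simp
  have hinv : AR⁻¹ = (p : ℝ)⁻¹ • BR := by
    apply Matrix.inv_eq_right_inv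
    rw [Matrix.mul_smul, hAB, smul_smul, inv_mul_cancel₀ hp0, one_smul]
  have hdet : AR.det = (p : ℝ) ^ 2 := by
    rw [hAR, ← Int.cast_det, hA.det_eq]
    push_cast
    ring
  set τ : ℂ := ((ModularGroup.S • z : ℍ) : ℂ) with hτdef
  have hτ : 0 < τ.im := (ModularGroup.S • z).im_pos
  have hz0 : (z : ℂ) ≠ 0 := UpperHalfPlane.ne_zero z
  have hτz : τ = -1 / (z : ℂ) := by
    rw [hτdef, UpperHalfPlane.modular_S_smul]
    simp only
    field_simp
  set h : Fin 4 → ℝ := (p : ℝ)⁻¹ • toR (B *ᵥ y) with hh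
  have hAh : AR *ᵥ h = toR y := by
    rw [hh, mulVec_smul, hAR, toR_mulVec, mulVec_mulVec, hA.mul_eq]
    funext i
    simp only [Pi.smul_apply, toR, smul_eq_mul, smul_mulVec, one_mulVec]
    push_cast
    field_simp
  have key := theta_inversion AR hA.posDef τ hτ h 0
  -- left hand side
  have hL : ∀ x : Fin 4 → ℤ,
      cexp (π * I * τ * ((toR x + h) ⬝ᵥ (AR *ᵥ (toR x + h)) : ℝ) +
        2 * π * I * (((0 : Fin 4 → ℝ) ⬝ᵥ (toR x + h) : ℝ) : ℂ)) =
      Complex.exp (Real.pi * Complex.I * (ModularGroup.S • z : ℍ) *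
        ((Fermat.Agent.S16.qf A x : ℂ) + 2 * ((x ⬝ᵥ y : ℤ) : ℂ) +
          (Fermat.Agent.S16.qf B y : ℂ) / p)) := by
    intro x
    have e1 : (toR x + h) ⬝ᵥ (AR *ᵥ (toR x + h)) =
        ((Fermat.Agent.S16.qf A x : ℤ) : ℝ) + 2 * ((x ⬝ᵥ y : ℤ) : ℝ) +
          ((Fermat.Agent.S16.qf B y : ℤ) : ℝ) / p := by
      rw [mulVec_add, hAh, hAR, toR_mulVec, add_dotProduct, dotProduct_add, dotProduct_add,
        toR_dot, toR_dot]
      have e2 : h ⬝ᵥ toR (A *ᵥ x) = ((x ⬝ᵥ y : ℤ) : ℝ) := by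
        rw [← toR_mulVec, ← hAR, dot_mulVec_symm AR hsymm, hAh, toR_dot, dotProduct_comm]
      have e3 : h ⬝ᵥ toR y = ((Fermat.Agent.S16.qf B y : ℤ) : ℝ) / p := by
        rw [hh, smul_dotProduct, toR_dot, Fermat.Agent.S16.qf, dotProduct_comm, smul_eq_mul]
        field_simp
      simp only [e2, e3, Fermat.Agent.S16.qf]
      ring
    rw [e1, zero_dotProduct]
    congr 1
    push_cast
    ring
  -- right hand side
  have hR : ∀ w : Fin 4 → ℤ,
      cexp (-(π * I / τ) * ((toR w - 0) ⬝ᵥ (AR⁻¹ *ᵥ (toR w - 0)) : ℝ) +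
          2 * π * I * ((toR w ⬝ᵥ h : ℝ) : ℂ)) =
      Complex.exp (Real.pi * Complex.I * z * ((Fermat.Agent.S16.qf B w : ℂ) / p) +
        2 * Real.pi * Complex.I * (((w ⬝ᵥ B.mulVec y : ℤ) : ℂ) / p)) := by
    intro w
    have e1 : (toR w - 0) ⬝ᵥ (AR⁻¹ *ᵥ (toR w - 0)) = ((Fermat.Agent.S16.qf B w : ℤ) : ℝ) / p := by
      rw [sub_zero, hinv, smul_mulVec, hBR, toR_mulVec, dotProduct_smul, toR_dot,
        Fermat.Agent.S16.qf, smul_eq_mul]
      field_simp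
    have e2 : toR w ⬝ᵥ h = ((w ⬝ᵥ B.mulVec y : ℤ) : ℝ) / p := by
      rw [hh, dotProduct_smul, toR_dot, smul_eq_mul]
      field_simp
    rw [e1, e2, hτz]
    congr 1
    push_cast
    field_simp
  -- the constant
  have hc : (1 / (-I * τ) ^ (1 / 2 : ℂ)) ^ Fintype.card (Fin 4) * (1 / (Real.sqrt AR.det : ℂ)) =
      -(z : ℂ) ^ 2 / p := by
    have h2 : ((-I * τ) ^ (1 / 2 : ℂ)) ^ 2 = -I * τ := by
      have := Complex.cpow_nat_inv_pow (-I * τ) (n := 2) two_ne_zero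
      rw [show (((2 : ℕ) : ℂ))⁻¹ = (1 / 2 : ℂ) by norm_num] at this
      exact this
    have h4 : ((-I * τ) ^ (1 / 2 : ℂ)) ^ 4 = -(1 / (z : ℂ) ^ 2) := by
      have : ((-I * τ) ^ (1 / 2 : ℂ)) ^ 4 = (((-I * τ) ^ (1 / 2 : ℂ)) ^ 2) ^ 2 := by ring
      rw [this, h2, hτz]
      have hI : I ^ 2 = -1 := Complex.I_sq
      field_simp
      linear_combination hI
    have hs : Real.sqrt AR.det = p := by
      rw [hdet, Real.sqrt_sq (Nat.cast_nonneg p)]
    rw [Fintype.card_fin, one_div, inv_pow, h4, hs]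
    push_cast
    field_simp
  unfold Fermat.Agent.S16.thetaChar
  rw [← tsum_congr hL, key, tsum_congr hR, hc]

/-- WP INV in the EXACT shape of `Skel.theta_inversion`. -/
theorem theta_inversion_ibu (p : ℕ) [Fact p.Prime] (q r t : ℤ) (_hq : 0 < q) (_hq4 : q % 4 = 3)
    (_hrt : r ^ 2 + (p : ℤ) = q * t) (B : Matrix (Fin 4) (Fin 4) ℤ)
    (hA : Fermat.Agent.S16.IsGoodLattice p (Fermat.Agent.S16.ibuA p q r t) B) :
    Fermat.Agent.S16.ThetaInv p (Fermat.Agent.S16.ibuA p q r t) B :=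
  thetaInv_of_isGoodLattice p (Fact.out : p.Prime).pos _ B hA

end Fermat.Agent.S16.H471
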