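import Fermat.Agent.S16.H471.GaussMain

/-!
# Schur complement: positive definite matrices on `Unit ⊕ ι`
-/

open Complex Real Matrix

namespace Fermat.Agent.S16.H471

section Schur

variable {ι : Type*} [Fintype ι] [DecidableEq ι]

/-- the quadratic form of a real matrix -/
def qf {κ : Type*} [Fintype κ] (A : Matrix κ κ ℝ) (v : κ → ℝ) : ℝ := v ⬝ᵥ (A *ᵥ v)

/-- corner entry -/
def cornerA (A : Matrix (Unit ⊕ ι) (Unit ⊕ ι) ℝ) : ℝ := A (Sum.inl ()) (Sum.inl ())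

/-- first column (below the corner) -/
def colB (A : Matrix (Unit ⊕ ι) (Unit ⊕ ι) ℝ) : ι → ℝ := fun i => A (Sum.inr i) (Sum.inl ())

/-- normalized column `β = b / a` -/
noncomputable def betaV (A : Matrix (Unit ⊕ ι) (Unit ⊕ ι) ℝ) : ι → ℝ :=
  fun i => (cornerA A)⁻¹ * colB A i

/-- the Schur complement `S = D - b bᵀ / a` -/
noncomputable def schurS (A : Matrix (Unit ⊕ ι) (Unit ⊕ ι) ℝ) : Matrix ι ι ℝ :=
  fun i j => A (Sum.inr i) (Sum.inr j) - (cornerA A)⁻¹ * colB A i * colB A j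

lemma mulVec_inl (A : Matrix (Unit ⊕ ι) (Unit ⊕ ι) ℝ) (hA : A.IsSymm) (v : Unit ⊕ ι → ℝ) :
    (A *ᵥ v) (Sum.inl ()) = cornerA A * v (Sum.inl ()) + colB A ⬝ᵥ (v ∘ Sum.inr) := by
  simp only [mulVec, dotProduct, Fintype.sum_sum_type, Finset.univ_unique, Finset.sum_singleton,
    cornerA, colB, Function.comp]
  congr 1
  refine Finset.sum_congr rfl (fun j _ => ?_)
  have := hA.apply (Sum.inl ()) (Sum.inr j)
  rw [this]

lemma mulVec_inr (A : Matrix (Unit ⊕ ι) (Unit ⊕ ι) ℝ) (v : Unit ⊕ ι → ℝ) (i : ι) :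
    (A *ᵥ v) (Sum.inr i) = colB A i * v (Sum.inl ()) +
      ∑ j, A (Sum.inr i) (Sum.inr j) * v (Sum.inr j) := by
  simp only [mulVec, dotProduct, Fintype.sum_sum_type, Finset.univ_unique, Finset.sum_singleton,
    colB]

lemma qf_schurS (A : Matrix (Unit ⊕ ι) (Unit ⊕ ι) ℝ) (x : ι → ℝ) :
    qf (schurS A) x = (∑ i, x i * ∑ j, A (Sum.inr i) (Sum.inr j) * x j) -
      (cornerA A)⁻¹ * (colB A ⬝ᵥ x) ^ 2 := by
  simp only [qf, mulVec, dotProduct, schurS, sub_mul, Finset.sum_sub_distrib, mul_sub]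
  congr 1
  rw [pow_two, Finset.sum_mul_sum, Finset.mul_sum]
  refine Finset.sum_congr rfl (fun i _ => ?_)
  rw [Finset.mul_sum, Finset.mul_sum]
  refine Finset.sum_congr rfl (fun j _ => ?_)
  ring

lemma qf_expand (A : Matrix (Unit ⊕ ι) (Unit ⊕ ι) ℝ) (hA : A.IsSymm) (v : Unit ⊕ ι → ℝ) :
    qf A v = cornerA A * v (Sum.inl ()) ^ 2 + 2 * v (Sum.inl ()) * (colB A ⬝ᵥ (v ∘ Sum.inr)) +
      ∑ i, v (Sum.inr i) * ∑ j, A (Sum.inr i) (Sum.inr j) * v (Sum.inr j) := by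
  rw [qf, dot_sum, mulVec_inl A hA]
  have : (v ∘ Sum.inr) ⬝ᵥ ((A *ᵥ v) ∘ Sum.inr) =
      v (Sum.inl ()) * (colB A ⬝ᵥ (v ∘ Sum.inr)) +
        ∑ i, v (Sum.inr i) * ∑ j, A (Sum.inr i) (Sum.inr j) * v (Sum.inr j) := by
    simp only [dotProduct, Function.comp, mulVec_inr, mul_add, Finset.sum_add_distrib,
      Finset.mul_sum]
    congr 1
    refine Finset.sum_congr rfl (fun i _ => ?_)
    ring
  rw [this]
  ring

lemma betaV_dot (A : Matrix (Unit ⊕ ι) (Unit ⊕ ι) ℝ) (x : ι → ℝ) :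
    betaV A ⬝ᵥ x = (cornerA A)⁻¹ * (colB A ⬝ᵥ x) := by
  simp only [betaV, dotProduct, Finset.mul_sum, mul_assoc]

/-- (M1) Schur decomposition of the quadratic form. -/
lemma qf_eq_Qp (A : Matrix (Unit ⊕ ι) (Unit ⊕ ι) ℝ) (hA : A.IsSymm) (ha : cornerA A ≠ 0) :
    qf A = Qp (cornerA A) (betaV A) (qf (schurS A)) := by
  funext v
  rw [qf_expand A hA, Qp, qf_schurS, betaV_dot]
  simp only [Function.comp]
  field_simp
  ring

end Schur

end Fermat.Agent.S16.H471
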