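import Fermat.Agent.S16.H471.Schur

/-!
# Schur complement: positivity, dual form, determinant
-/

open Complex Real Matrix

namespace Fermat.Agent.S16.H471

section Schur2

variable {ι : Type*} [Fintype ι] [DecidableEq ι]

lemma isSymm_of_posDef {κ : Type*} [Fintype κ] {A : Matrix κ κ ℝ} (hA : A.PosDef) : A.IsSymm := by
  have h := hA.isHermitian
  unfold Matrix.IsHermitian at h
  rw [conjTranspose_eq_transpose_of_trivial] at h
  exact h

lemma posDef_iff_qf {κ : Type*} [Fintype κ] {A : Matrix κ κ ℝ} :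
    A.PosDef ↔ A.IsSymm ∧ ∀ x : κ → ℝ, x ≠ 0 → 0 < qf A x := by
  rw [posDef_iff_dotProduct_mulVec]
  constructor
  · rintro ⟨h1, h2⟩
    refine ⟨?_, fun x hx => ?_⟩
    · unfold Matrix.IsHermitian at h1
      rwa [conjTranspose_eq_transpose_of_trivial] at h1
    · simpa [qf] using h2 hx
  · rintro ⟨h1, h2⟩
    refine ⟨?_, fun x hx => ?_⟩
    · unfold Matrix.IsHermitian
      rwa [conjTranspose_eq_transpose_of_trivial]
    · simpa [qf] using h2 x hx

lemma cornerA_pos (A : Matrix (Unit ⊕ ι) (Unit ⊕ ι) ℝ) (hA : A.PosDef) : 0 < cornerA A :=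
  hA.diag_pos

/-- (M2) the Schur complement is positive definite. -/
lemma schurS_posDef (A : Matrix (Unit ⊕ ι) (Unit ⊕ ι) ℝ) (hA : A.PosDef) :
    (schurS A).PosDef := by
  have hsymm := isSymm_of_posDef hA
  have ha := cornerA_pos A hA
  rw [posDef_iff_qf]
  refine ⟨?_, fun x hx => ?_⟩
  · refine Matrix.IsSymm.ext (fun i j => ?_)
    simp only [schurS, colB]
    rw [hsymm.apply (Sum.inr i) (Sum.inr j)]
    ring
  · set v : Unit ⊕ ι → ℝ := Sum.elim (fun _ => -(betaV A ⬝ᵥ x)) x with hv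
    have hv0 : v ≠ 0 := by
      intro h
      apply hx
      funext i
      have := congrFun h (Sum.inr i)
      simpa [hv] using this
    have h1 := (posDef_iff_qf.mp hA).2 v hv0
    rw [qf_eq_Qp A hsymm ha.ne'] at h1
    have h2 : v ∘ Sum.inr = x := rfl
    have h3 : v (Sum.inl ()) = -(betaV A ⬝ᵥ x) := rfl
    simpa [Qp, h2, h3] using h1

lemma mulVec_inr' (A : Matrix (Unit ⊕ ι) (Unit ⊕ ι) ℝ) (w : Unit ⊕ ι → ℝ) :
    (A *ᵥ w) ∘ Sum.inr = (w (Sum.inl ()) + betaV A ⬝ᵥ (w ∘ Sum.inr)) • colB A +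
      schurS A *ᵥ (w ∘ Sum.inr) := by
  funext i
  simp only [Function.comp, mulVec_inr, Pi.add_apply, Pi.smul_apply, smul_eq_mul, betaV_dot]
  simp only [mulVec, dotProduct, schurS, sub_mul, Finset.sum_sub_distrib, Function.comp]
  have : ∑ j, (cornerA A)⁻¹ * colB A i * colB A j * w (Sum.inr j) =
      (cornerA A)⁻¹ * colB A i * ∑ j, colB A j * w (Sum.inr j) := by
    rw [Finset.mul_sum]
    refine Finset.sum_congr rfl (fun j _ => ?_)
    ring
  rw [this]
  ring

/-- (M3) Schur decomposition of the dual (inverse) quadratic form. -/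
lemma qf_inv_eq_Qdp (A : Matrix (Unit ⊕ ι) (Unit ⊕ ι) ℝ) (hA : A.PosDef) :
    qf A⁻¹ = Qdp (cornerA A) (betaV A) (qf (schurS A)⁻¹) := by
  have hsymm := isSymm_of_posDef hA
  have ha := cornerA_pos A hA
  have hS := schurS_posDef A hA
  have hSsymm := isSymm_of_posDef hS
  have hAu : IsUnit A.det := (Matrix.isUnit_iff_isUnit_det A).mp hA.isUnit
  have hSu : IsUnit (schurS A).det := (Matrix.isUnit_iff_isUnit_det _).mp hS.isUnit
  funext y
  set w : Unit ⊕ ι → ℝ := A⁻¹ *ᵥ y with hw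
  have hAw : A *ᵥ w = y := by
    rw [hw, mulVec_mulVec, Matrix.mul_nonsing_inv A hAu, one_mulVec]
  -- qf A⁻¹ y = qf A w
  have h1 : qf A⁻¹ y = qf A w := by
    rw [qf, qf, ← hw, hAw, dotProduct_comm]
  rw [h1, qf_eq_Qp A hsymm ha.ne', Qp, Qdp]
  -- first coordinate
  have hy0 : y (Sum.inl ()) = cornerA A * (w (Sum.inl ()) + betaV A ⬝ᵥ (w ∘ Sum.inr)) := by
    rw [← hAw, mulVec_inl A hsymm, betaV_dot]
    field_simp
  -- other coordinates
  have hy' : y ∘ Sum.inr - y (Sum.inl ()) • betaV A = schurS A *ᵥ (w ∘ Sum.inr) := by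
    rw [hy0, ← hAw, mulVec_inr']
    funext i
    simp only [Pi.sub_apply, Pi.add_apply, Pi.smul_apply, smul_eq_mul, betaV]
    field_simp
    ring
  rw [hy']
  have h2 : qf (schurS A)⁻¹ (schurS A *ᵥ (w ∘ Sum.inr)) = qf (schurS A) (w ∘ Sum.inr) := by
    rw [qf, qf, mulVec_mulVec, Matrix.nonsing_inv_mul _ hSu, one_mulVec, dotProduct_comm]
  rw [h2, hy0]
  field_simp

/-- (M4) determinant. -/
lemma det_eq_corner_mul (A : Matrix (Unit ⊕ ι) (Unit ⊕ ι) ℝ) (hA : A.PosDef) :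
    A.det = cornerA A * (schurS A).det := by
  have ha := cornerA_pos A hA
  have hsymm := isSymm_of_posDef hA
  have hblocks : fromBlocks A.toBlocks₁₁ A.toBlocks₁₂ A.toBlocks₂₁ A.toBlocks₂₂ = A :=
    fromBlocks_toBlocks A
  have hmul : A.toBlocks₁₁ * (Matrix.of (fun _ _ => (cornerA A)⁻¹) : Matrix Unit Unit ℝ) = 1 := by
    ext i j
    have hc : A (Sum.inl ()) (Sum.inl ()) ≠ 0 := ha.ne'
    simp only [Matrix.mul_apply, toBlocks₁₁, cornerA, Finset.univ_unique, Finset.sum_singleton,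
      Matrix.of_apply, Matrix.one_apply]
    rw [if_pos trivial]
    exact mul_inv_cancel₀ hc
  let inst : Invertible A.toBlocks₁₁ := invertibleOfRightInverse _ _ hmul
  have hinv : ⅟ A.toBlocks₁₁ = (Matrix.of (fun _ _ => (cornerA A)⁻¹) : Matrix Unit Unit ℝ) :=
    invOf_eq_right_inv hmul
  have hdet := det_fromBlocks₁₁ A.toBlocks₁₁ A.toBlocks₁₂ A.toBlocks₂₁ A.toBlocks₂₂
  rw [hblocks] at hdet
  rw [hdet, det_unique]
  congr 1
  congr 1
  ext i j
  rw [hinv]
  simp only [Matrix.sub_apply, Matrix.mul_apply, Finset.univ_unique, Finset.sum_singleton,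
    toBlocks₂₂, toBlocks₂₁, toBlocks₁₂, Matrix.of_apply, schurS, colB]
  have := hsymm.apply (Sum.inl ()) (Sum.inr j)
  have e : A (Sum.inl default) (Sum.inr j) = A (Sum.inr j) (Sum.inl ()) := this.symm
  rw [e]
  have e2 : A (Sum.inr i) (Sum.inl default) = A (Sum.inr i) (Sum.inl ()) := rfl
  rw [e2]
  ring

end Schur2

end Fermat.Agent.S16.H471
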