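import Mathlib

/-!
# One-dimensional Gaussian theta inversion with real characteristics

`theta_one_dim`: for `a > 0`, `Im τ > 0`, real `c`, `γ`:
`∑ₙ exp(πiτ a (n+c)² + 2πi γ (n+c)) = 1/((-iτ)^(1/2) √a) · ∑ₘ exp(-(πi/(τ a)) (m-γ)² + 2πi m c)`.

`ubound_one`: uniform bound for `∑ₙ exp(-c (n+s)²)` in `s`.
-/

open Complex Real

namespace Fermat.Agent.S16.H471

/-- 1-D theta inversion with real shift `c` and real linear term `γ`. -/
theorem theta_one_dim (a : ℝ) (ha : 0 < a) (τ : ℂ) (hτ : 0 < τ.im) (c γ : ℝ) :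
    ∑' n : ℤ, cexp (π * I * τ * a * ((n : ℂ) + c) ^ 2 + 2 * π * I * γ * ((n : ℂ) + c)) =
      1 / ((-I * τ) ^ (1 / 2 : ℂ) * (Real.sqrt a : ℂ)) *
        ∑' m : ℤ, cexp (-(π * I / (τ * a)) * ((m : ℂ) - γ) ^ 2 + 2 * π * I * m * c) := by
  have hτ0 : τ ≠ 0 := by
    rintro rfl; simp at hτ
  have ha0 : (a : ℂ) ≠ 0 := by exact_mod_cast ha.ne'
  set α : ℂ := -I * τ * a with hα
  have hαre : 0 < α.re := by
    have : α = (-I * τ) * (a : ℂ) := rfl
    rw [this, Complex.mul_re]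
    simp [Complex.mul_re, Complex.mul_im]
    exact mul_pos hτ ha
  have hα0 : α ≠ 0 := by
    rintro h; rw [h] at hαre; simp at hαre
  have key := Complex.tsum_exp_neg_quadratic hαre (I * (τ * a * c + γ))
  have hL : ∀ n : ℤ, cexp (π * I * τ * a * ((n : ℂ) + c) ^ 2 + 2 * π * I * γ * ((n : ℂ) + c)) =
      cexp (π * I * τ * a * c ^ 2 + 2 * π * I * γ * c) *
        cexp (-π * α * (n : ℂ) ^ 2 + 2 * π * (I * (τ * a * c + γ)) * n) := by
    intro n
    rw [← Complex.exp_add]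
    congr 1
    rw [hα]; ring
  have hR : ∀ m : ℤ, cexp (-π / α * ((m : ℂ) + I * (I * (τ * a * c + γ))) ^ 2) =
      cexp (-(π * I * τ * a * c ^ 2 + 2 * π * I * γ * c)) *
        cexp (-(π * I / (τ * a)) * ((m : ℂ) - γ) ^ 2 + 2 * π * I * m * c) := by
    intro m
    rw [← Complex.exp_add]
    congr 1
    have h1 : -(π : ℂ) / α = -(π * I / (τ * a)) := by
      rw [hα]
      field_simp
      ring_nf
      simp [Complex.I_sq]
    have h2 : (m : ℂ) + I * (I * (τ * a * c + γ)) = (m : ℂ) - γ - τ * a * c := by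
      have : I * (I * (τ * a * c + γ)) = -(τ * a * c + γ) := by
        rw [← mul_assoc, Complex.I_mul_I]; ring
      rw [this]; ring
    rw [h1, h2]
    field_simp
    ring
  simp_rw [hL, tsum_mul_left, key, hR, tsum_mul_left]
  have hz0 : -I * τ ≠ 0 := mul_ne_zero (neg_ne_zero.mpr I_ne_zero) hτ0
  have hpow : α ^ (1 / 2 : ℂ) = (-I * τ) ^ (1 / 2 : ℂ) * (Real.sqrt a : ℂ) := by
    rw [hα, mul_comm (-I * τ) (a : ℂ), Complex.cpow_def_of_ne_zero (mul_ne_zero ha0 hz0),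
      Complex.log_ofReal_mul ha hz0, Complex.cpow_def_of_ne_zero hz0, add_mul, Complex.exp_add,
      mul_comm]
    congr 1
    rw [Real.sqrt_eq_rpow, Complex.ofReal_cpow ha.le, Complex.cpow_def_of_ne_zero ha0,
      Complex.ofReal_log ha.le]
    norm_num
  rw [hpow]
  have hE : cexp (π * I * τ * a * c ^ 2 + 2 * π * I * γ * c) *
      cexp (-(π * I * τ * a * c ^ 2 + 2 * π * I * γ * c)) = 1 := by
    rw [← Complex.exp_add]; simp
  calc _ = (cexp (π * I * τ * a * c ^ 2 + 2 * π * I * γ * c) *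
      cexp (-(π * I * τ * a * c ^ 2 + 2 * π * I * γ * c))) *
        (1 / ((-I * τ) ^ (1 / 2 : ℂ) * (Real.sqrt a : ℂ)) *
        ∑' m : ℤ, cexp (-(π * I / (τ * a)) * ((m : ℂ) - γ) ^ 2 + 2 * π * I * m * c)) := by ring
    _ = _ := by rw [hE, one_mul]

/-- Summability of the Gaussian over `ℤ`. -/
lemma summable_gauss_int (c : ℝ) (hc : 0 < c) :
    Summable (fun n : ℤ => rexp (-(c * (n : ℝ) ^ 2))) := by
  have h := (summable_jacobiTheta₂_term_iff 0 (I * (c / π : ℝ))).mpr (by simpa using div_pos hc pi_pos)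
  have h2 := h.norm
  refine h2.congr (fun n => ?_)
  rw [norm_jacobiTheta₂_term]
  congr 1
  simp
  field_simp

/-- Uniform (in the shift) bound for the shifted Gaussian sum over `ℤ`. -/
lemma ubound_one (c : ℝ) (hc : 0 < c) :
    ∃ C : ℝ, ∀ s : ℝ, Summable (fun n : ℤ => rexp (-(c * ((n : ℝ) + s) ^ 2))) ∧
      ∑' n : ℤ, rexp (-(c * ((n : ℝ) + s) ^ 2)) ≤ C := by
  set f₀ : ℤ → ℝ := fun n => rexp (-(c * (n : ℝ) ^ 2)) with hf₀
  have hs₀ : Summable f₀ := summable_gauss_int c hc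
  refine ⟨2 * ∑' n, f₀ n, fun s => ?_⟩
  set k : ℤ := ⌊s⌋ with hk
  have hfr0 : 0 ≤ s - k := sub_nonneg.mpr (Int.floor_le s)
  have hfr1 : s - k < 1 := by
    have := Int.lt_floor_add_one s
    rw [← hk] at this; linarith
  have hsA : Summable (fun n : ℤ => f₀ (n + k)) := (Equiv.addRight k).summable_iff.mpr hs₀
  have hsB : Summable (fun n : ℤ => f₀ (n + k + 1)) := by
    have := (Equiv.addRight (k + 1)).summable_iff.mpr hs₀
    refine this.congr (fun n => ?_)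
    simp [add_assoc]
  have hle : ∀ n : ℤ, rexp (-(c * ((n : ℝ) + s) ^ 2)) ≤ f₀ (n + k) + f₀ (n + k + 1) := by
    intro n
    simp only [hf₀]
    rcases le_or_gt 0 (n + k) with h | h
    · have h' : (0 : ℝ) ≤ ((n + k : ℤ) : ℝ) := by exact_mod_cast h
      have : ((n + k : ℤ) : ℝ) ^ 2 ≤ ((n : ℝ) + s) ^ 2 := by
        push_cast at h' ⊢
        nlinarith
      calc rexp (-(c * ((n : ℝ) + s) ^ 2)) ≤ rexp (-(c * ((n + k : ℤ) : ℝ) ^ 2)) := by
            apply Real.exp_le_exp.mpr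
            nlinarith
        _ ≤ _ := le_add_of_nonneg_right (Real.exp_pos _).le
    · have h' : ((n + k + 1 : ℤ) : ℝ) ≤ 0 := by exact_mod_cast (by omega : n + k + 1 ≤ 0)
      have : ((n + k + 1 : ℤ) : ℝ) ^ 2 ≤ ((n : ℝ) + s) ^ 2 := by
        push_cast at h' ⊢
        nlinarith
      calc rexp (-(c * ((n : ℝ) + s) ^ 2)) ≤ rexp (-(c * ((n + k + 1 : ℤ) : ℝ) ^ 2)) := by
            apply Real.exp_le_exp.mpr
            nlinarith
        _ ≤ _ := le_add_of_nonneg_left (Real.exp_pos _).le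
  have hsum : Summable (fun n : ℤ => rexp (-(c * ((n : ℝ) + s) ^ 2))) :=
    Summable.of_nonneg_of_le (fun n => (Real.exp_pos _).le) hle (hsA.add hsB)
  refine ⟨hsum, ?_⟩
  calc ∑' n : ℤ, rexp (-(c * ((n : ℝ) + s) ^ 2))
      ≤ ∑' n : ℤ, (f₀ (n + k) + f₀ (n + k + 1)) := hsum.tsum_le_tsum hle (hsA.add hsB)
    _ = ∑' n : ℤ, f₀ (n + k) + ∑' n : ℤ, f₀ (n + k + 1) := hsA.tsum_add hsB
    _ = ∑' n, f₀ n + ∑' n, f₀ n := by
        congr 1
        · exact (Equiv.addRight k).tsum_eq f₀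
        · have := (Equiv.addRight (k + 1)).tsum_eq f₀
          rw [← this]
          congr 1; funext n; simp [add_assoc]
    _ = 2 * ∑' n, f₀ n := by ring

end Fermat.Agent.S16.H471
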